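import Fermat.Agent.S27.Plane
import Fermat.Agent.S27.BC.Defs

/-!
# S27 / WP D15 : a model of `F/K` over small algebraically closed subfields
-/

set_option autoImplicit false
set_option linter.unusedSectionVars false

open AlgebraicCurve WithZero IntermediateField Polynomial
open scoped Polynomial.Bivariate TensorProduct

namespace Fermat.Agent.S27

namespace Model

variable {K F : Type*} [Field K] [Field F] [Algebra K F]

section Abstract

variable {R B : Type*} [CommRing R] [IsDomain R] [CommRing B]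

/-- `b` is algebraic over `R` with respect to the ring homomorphism `ι`. -/
def AlgOver (ι : R →+* B) (b : B) : Prop := ∃ p : R[X], p ≠ 0 ∧ eval₂ ι b p = 0

theorem AlgOver.add {ι : R →+* B} {a b : B} (ha : AlgOver ι a) (hb : AlgOver ι b) :
    AlgOver ι (a + b) := by
  let _ := ι.toAlgebra
  exact IsAlgebraic.add (R := R) ha hb

theorem AlgOver.mul {ι : R →+* B} {a b : B} (ha : AlgOver ι a) (hb : AlgOver ι b) :
    AlgOver ι (a * b) := by
  let _ := ι.toAlgebra
  exact IsAlgebraic.mul (R := R) ha hb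

theorem AlgOver.map (ι : R →+* B) (r : R) : AlgOver ι (ι r) := by
  let _ := ι.toAlgebra
  exact isAlgebraic_algebraMap (R := R) (A := B) r

theorem AlgOver.zero (ι : R →+* B) : AlgOver ι 0 := by
  simpa using AlgOver.map ι 0

theorem injective_of_algOver [IsDomain B] {F' : Type*} [CommRing F'] (ι : R →+* B) (φ : B →+* F')
    (hinj : ∀ r, φ (ι r) = 0 → r = 0) (halg : ∀ b, AlgOver ι b) : Function.Injective φ := by
  let _ := ι.toAlgebra
  rw [injective_iff_map_eq_zero]
  intro x hx
  by_contra hx0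
  have hx1 : IsAlgebraic R x := halg x
  obtain ⟨r, hr0, z, hz⟩ := hx1.exists_nonzero_dvd (mem_nonZeroDivisors_of_ne_zero hx0)
  apply hr0
  apply hinj
  have hz' : ι r = x * z := hz
  rw [hz', map_mul, hx, zero_mul]

end Abstract

section

variable (k : Type*) [Field k] [Algebra k K] [Algebra k F] [IsScalarTower k K F] (t y : F)

/-- the model field `k(t,y)`. -/
abbrev F0 : IntermediateField k F := adjoin k ({t, y} : Set F)

/-- `t` as an element of `k(t,y)`. -/
def t0 : F0 k t y := ⟨t, subset_adjoin k _ (by simp)⟩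

/-- `y` as an element of `k(t,y)`. -/
def y0 : F0 k t y := ⟨y, subset_adjoin k _ (by simp)⟩

/-- evaluation `k[X][Y] → k(t,y)`. -/
noncomputable def evk : k[X][Y] →+* F0 k t y :=
  eval₂RingHom (aeval (t0 k t y) : k[X] →ₐ[k] F0 k t y).toRingHom (y0 k t y)

theorem algebraMap_evk (p : k[X][Y]) :
    algebraMap (F0 k t y) F (evk k t y p) =
      aevalAeval t y (p.map (mapRingHom (algebraMap k K))) := by
  have h : (algebraMap (F0 k t y) F).comp (evk k t y) =
      ((aevalAeval t y : K[X][Y] →ₐ[K] F) : K[X][Y] →+* F).comp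
        (mapRingHom (mapRingHom (algebraMap k K))) := by
    apply Polynomial.ringHom_ext'
    · apply Polynomial.ringHom_ext'
      · ext c
        simp [evk, ← IsScalarTower.algebraMap_apply]
      · simp [evk, t0]
    · simp [evk, y0]
  exact RingHom.congr_fun h p




theorem transcendental_t0 (ht : Transcendental K t) : Transcendental k (t0 k t y) := by
  intro h
  apply ht
  have h1 : IsAlgebraic k t := h.algebraMap (A := F)
  exact h1.tower_top K

theorem adjoin_t0_y0 : adjoin k ({t0 k t y} ∪ {y0 k t y} : Set (F0 k t y)) = ⊤ := by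
  apply IntermediateField.lift_injective
  rw [lift_adjoin, lift_top]
  congr 1
  ext x
  simp only [t0, y0, Set.union_singleton, Set.image_insert_eq, Set.image_singleton,
    Set.mem_insert_iff, Set.mem_singleton_iff]
  tauto

theorem isIntegral_y0 (Φ₀ : k[X][Y]) (hm : Φ₀.Monic) (h0 : evk k t y Φ₀ = 0) :
    IsIntegral k⟮t0 k t y⟯ (y0 k t y) := by
  let tE : k⟮t0 k t y⟯ := ⟨t0 k t y, mem_adjoin_simple_self k _⟩
  let φE : k[X] →+* k⟮t0 k t y⟯ := (aeval tE : k[X] →ₐ[k] k⟮t0 k t y⟯).toRingHom
  refine ⟨Φ₀.map φE, hm.map _, ?_⟩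
  rw [eval₂_map]
  have : (algebraMap k⟮t0 k t y⟯ (F0 k t y)).comp φE =
      (aeval (t0 k t y) : k[X] →ₐ[k] F0 k t y).toRingHom := by
    apply Polynomial.ringHom_ext'
    · ext c
      simp [φE, ← IsScalarTower.algebraMap_apply]
    · simp [φE, tE]
  rw [this]
  exact h0

theorem isFiniteParam_t0 (ht : Transcendental K t) (Φ₀ : k[X][Y]) (hm : Φ₀.Monic)
    (h0 : evk k t y Φ₀ = 0) : S24.IsFiniteParam k (t0 k t y) := by
  refine ⟨transcendental_t0 k t y ht, ?_⟩
  have hint := isIntegral_y0 k t y Φ₀ hm h0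
  have htop : adjoin k⟮t0 k t y⟯ ({y0 k t y} : Set (F0 k t y)) = ⊤ := by
    apply IntermediateField.restrictScalars_injective k
    rw [adjoin_adjoin_left, adjoin_t0_y0, restrictScalars_top]
  have hfin : FiniteDimensional k⟮t0 k t y⟯ (adjoin k⟮t0 k t y⟯ ({y0 k t y} : Set (F0 k t y))) :=
    adjoin.finiteDimensional hint
  rw [htop] at hfin
  exact (IntermediateField.topEquiv (F := k⟮t0 k t y⟯) (E := F0 k t y)).toLinearEquiv.finiteDimensional


/-- the map `K[X] → k(t,y) ⊗ K`. -/
noncomputable def iot : K[X] →+* F0 k t y ⊗[k] K :=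
  eval₂RingHom (Algebra.TensorProduct.includeRight : K →ₐ[k] F0 k t y ⊗[k] K).toRingHom
    (t0 k t y ⊗ₜ[k] (1 : K))

/-- the map `K[X][Y] → k(t,y) ⊗ K`. -/
noncomputable def tht : K[X][Y] →+* F0 k t y ⊗[k] K :=
  eval₂RingHom (iot (K := K) k t y) (y0 k t y ⊗ₜ[k] (1 : K))

theorem bcMap_iot (a : K[X]) : bcMap k K (F0 k t y) F (iot k t y a) = aeval t a := by
  have h : (bcMap k K (F0 k t y) F).toRingHom.comp
      (iot k t y) = (aeval t : K[X] →ₐ[K] F).toRingHom := by
    apply Polynomial.ringHom_ext'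
    · ext c
      simp [iot, bcMap]
    · simp [iot, bcMap, t0]
  exact RingHom.congr_fun h a

theorem bcMap_tht (a : K[X][Y]) : bcMap k K (F0 k t y) F (tht k t y a) = aevalAeval t y a := by
  have h : (bcMap k K (F0 k t y) F).toRingHom.comp
      (tht k t y) = (aevalAeval t y : K[X][Y] →ₐ[K] F).toRingHom := by
    apply Polynomial.ringHom_ext'
    · apply RingHom.ext
      intro a
      simp [tht, bcMap_iot]
    · simp [tht, bcMap, y0]
  exact RingHom.congr_fun h a

/-- every element of `k(t,y)` is algebraic over `k[t]`. -/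
theorem exists_poly (Φ₀ : k[X][Y]) (hm : Φ₀.Monic) (h0 : evk k t y Φ₀ = 0) (f : F0 k t y) :
    ∃ p : k[X][Y], p ≠ 0 ∧
      eval₂ (aeval (t0 k t y) : k[X] →ₐ[k] F0 k t y).toRingHom f p = 0 := by
  let _ : Algebra k[X] (F0 k t y) := (aeval (t0 k t y) : k[X] →ₐ[k] F0 k t y).toRingHom.toAlgebra
  suffices h : IsAlgebraic k[X] f from h
  have hf : f ∈ adjoin k ({t0 k t y} ∪ {y0 k t y} : Set (F0 k t y)) := by
    rw [adjoin_t0_y0]; trivial
  induction hf using IntermediateField.adjoin_induction with
  | mem x hx =>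
    rcases hx with hx | hx
    · rw [Set.mem_singleton_iff.1 hx]
      have : t0 k t y = algebraMap k[X] (F0 k t y) X := by
        simp [RingHom.algebraMap_toAlgebra]
      rw [this]
      exact isAlgebraic_algebraMap _
    · rw [Set.mem_singleton_iff.1 hx]
      exact ⟨Φ₀, hm.ne_zero, h0⟩
  | algebraMap c =>
    have : algebraMap k (F0 k t y) c = algebraMap k[X] (F0 k t y) (C c) := by
      simp [RingHom.algebraMap_toAlgebra]
    rw [this]
    exact isAlgebraic_algebraMap _
  | add x z _ _ hx hz => exact hx.add hz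
  | inv x _ hx => exact hx.inv
  | mul x z _ _ hx hz => exact hx.mul hz


theorem iot_map (p : k[X]) :
    iot (K := K) k t y (p.map (algebraMap k K)) = (aeval (t0 k t y) p) ⊗ₜ[k] (1 : K) := by
  induction p using Polynomial.induction_on' with
  | add p q hp hq => rw [Polynomial.map_add, map_add, hp, hq, map_add, TensorProduct.add_tmul]
  | monomial n c =>
    simp only [iot, map_monomial, coe_eval₂RingHom, eval₂_monomial, AlgHom.toRingHom_eq_coe,
      RingHom.coe_coe, Algebra.TensorProduct.includeRight_apply, aeval_monomial,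
      Algebra.TensorProduct.tmul_pow, one_pow, Algebra.TensorProduct.tmul_mul_tmul, one_mul,
      mul_one]
    rw [Algebra.algebraMap_eq_smul_one, Algebra.algebraMap_eq_smul_one, TensorProduct.tmul_smul,
      smul_mul_assoc, one_mul, TensorProduct.smul_tmul']

theorem eval₂_iot_map (f : F0 k t y) (p : k[X][Y]) :
    eval₂ (iot (K := K) k t y) (f ⊗ₜ[k] (1 : K)) (p.map (mapRingHom (algebraMap k K))) =
      (eval₂ (aeval (t0 k t y) : k[X] →ₐ[k] F0 k t y).toRingHom f p) ⊗ₜ[k] (1 : K) := by
  induction p using Polynomial.induction_on' with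
  | add p q hp hq => rw [Polynomial.map_add, eval₂_add, hp, hq, eval₂_add, TensorProduct.add_tmul]
  | monomial n c =>
    simp only [map_monomial, eval₂_monomial, coe_mapRingHom, iot_map,
      Algebra.TensorProduct.tmul_pow, one_pow, Algebra.TensorProduct.tmul_mul_tmul, mul_one,
      AlgHom.toRingHom_eq_coe, RingHom.coe_coe]

theorem isBC [IsAlgClosed k] (ht : Transcendental K t) (Φ₀ : k[X][Y]) (hm : Φ₀.Monic)
    (h0 : evk k t y Φ₀ = 0)
    (hgen : ∀ f : F, ∃ a b : K[X][Y], aevalAeval t y b ≠ 0 ∧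
      f * aevalAeval t y b = aevalAeval t y a) :
    IsBC k K (F0 k t y) F := by
  constructor
  · have : IsDomain (F0 k t y ⊗[k] K) := isDomain_tensor_of_isAlgClosed k _ K
    have halg : ∀ b : F0 k t y ⊗[k] K, AlgOver (iot k t y) b := by
      intro b
      induction b using TensorProduct.induction_on with
      | zero => exact AlgOver.zero _
      | tmul f c =>
        have h1 : f ⊗ₜ[k] c = (f ⊗ₜ[k] (1 : K)) * iot k t y (C c) := by
          simp [iot]
        rw [h1]
        refine AlgOver.mul ?_ (AlgOver.map _ _)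
        obtain ⟨p, hp0, hp⟩ := exists_poly k t y Φ₀ hm h0 f
        refine ⟨p.map (mapRingHom (algebraMap k K)),
          (Polynomial.map_ne_zero_iff (map_injective _ (algebraMap k K).injective)).2 hp0, ?_⟩
        rw [eval₂_iot_map, hp, TensorProduct.zero_tmul]
      | add x z hx hz => exact hx.add hz
    refine injective_of_algOver (iot k t y) (bcMap k K (F0 k t y) F).toRingHom ?_ halg
    intro r hr
    have h1 : bcMap k K (F0 k t y) F (iot k t y r) = 0 := hr
    rw [bcMap_iot] at h1
    exact (transcendental_iff.1 ht) r h1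
  · intro f
    obtain ⟨a, b, hb, hab⟩ := hgen f
    exact ⟨tht k t y a, tht k t y b, by rwa [bcMap_tht], by rw [bcMap_tht, bcMap_tht]; exact hab⟩

end

/-- lifting a bivariate polynomial whose coefficients lie in the image of `k`. -/
theorem exists_lift (k : Type*) [Field k] [Algebra k K] (Φ : K[X][Y])
    (hC : ∀ i j, (Φ.coeff i).coeff j ∈ Set.range (algebraMap k K)) :
    ∃ Φ₀ : k[X][Y], Φ₀.map (mapRingHom (algebraMap k K)) = Φ := by
  have h1 : ∀ i, Φ.coeff i ∈ Set.range (mapRingHom (algebraMap k K)) := by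
    intro i
    have : Φ.coeff i ∈ lifts (algebraMap k K) := (lifts_iff_coeff_lifts _).2 (hC i)
    obtain ⟨q, hq⟩ := (mem_lifts _).1 this
    exact ⟨q, hq⟩
  have h2 : Φ ∈ lifts (mapRingHom (algebraMap k K)) := (lifts_iff_coeff_lifts _).2 h1
  exact (mem_lifts _).1 h2

/-- **D15.** `F/K` is defined over every algebraically closed subfield containing a suitable finite
set `C` of constants (exact statement of `exists_model`). -/
theorem exists_model_aux (K F : Type*) [Field K] [Field F] [Algebra K F] [IsAlgClosed K]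
    [CharZero K] [IsFF K F] : ∃ (C : Finset K) (t y : F), t ∉ Set.range (algebraMap K F) ∧
    ∀ k : Subfield K, IsAlgClosed k → (∀ c ∈ C, c ∈ k) →
      IsFF k (adjoin k ({t, y} : Set F)) ∧ IsBC k K (adjoin k ({t, y} : Set F)) F := by
  classical
  have := infinite_places K F
  obtain ⟨P⟩ : Nonempty (Place K F) := inferInstance
  obtain ⟨t, ht⟩ := exists_unif P
  obtain ⟨M, η, -, -, -⟩ := exists_planeModel P t ht
  refine ⟨M.Φ.support.biUnion (fun i => (M.Φ.coeff i).coeffs), M.t, M.y, ?_, ?_⟩
  · rintro ⟨c, hc⟩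
    exact M.param.transcendental (hc ▸ isAlgebraic_algebraMap c)
  · intro k hk hC
    have hC' : ∀ i j, (M.Φ.coeff i).coeff j ∈ Set.range (algebraMap k K) := by
      intro i j
      by_cases h : (M.Φ.coeff i).coeff j = 0
      · exact ⟨0, by simp [h]⟩
      · have hi : i ∈ M.Φ.support := by
          rw [mem_support_iff]
          intro h0
          simp [h0] at h
        have : (M.Φ.coeff i).coeff j ∈ k :=
          hC _ (Finset.mem_biUnion.2 ⟨i, hi, coeff_mem_coeffs h⟩)
        exact ⟨⟨_, this⟩, rfl⟩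
    obtain ⟨Φ₀, hΦ₀⟩ := exists_lift k M.Φ hC'
    have hm : Φ₀.Monic :=
      monic_of_injective (map_injective _ (algebraMap k K).injective) (hΦ₀ ▸ M.monic)
    have h0 : evk k M.t M.y Φ₀ = 0 := by
      apply (algebraMap (F0 k M.t M.y) F).injective
      rw [algebraMap_evk (K := K), hΦ₀, map_zero]
      exact (M.ker _).2 dvd_rfl
    exact ⟨⟨_, isFiniteParam_t0 k M.t M.y M.param.transcendental Φ₀ hm h0⟩,
      isBC k M.t M.y M.param.transcendental Φ₀ hm h0 M.gen⟩

end Model

end Fermat.Agent.S27
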