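import Fermat.Agent.S27.BC.LPic
import Fermat.Agent.S27.BC.Field
import Fermat.Agent.S27.CountC

/-!
# S27 / WP D14 : the count for constant fields which embed into `ℂ` (owner: helper12)
-/

set_option autoImplicit false

open AlgebraicCurve WithZero

namespace Fermat.Agent.S27

/-- **D14**, with the embedding given as an algebra structure. -/
theorem card_torsion_small_aux (k F₀ : Type*) [Field k] [IsAlgClosed k] [CharZero k] [Field F₀]
    [Algebra k F₀] [IsFF k F₀] [Algebra k ℂ] (n : ℕ) (hn : 0 < n) :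
    Nat.card (Pic0.torsion k F₀ n) = n ^ (2 * genusFF k F₀) := by
  have h1 : Nat.card (Pic0.torsion ℂ (BCField k ℂ F₀) n) = n ^ (2 * genusFF ℂ (BCField k ℂ F₀)) :=
    card_torsion_complex n hn
  have hfin : Finite (Pic0.torsion ℂ (BCField k ℂ F₀) n) := by
    apply Nat.finite_of_card_ne_zero
    rw [h1]
    exact (pow_pos hn _).ne'
  rw [card_torsion_bc k ℂ F₀ (BCField k ℂ F₀) n hfin, h1, genusFF_bc k ℂ F₀ (BCField k ℂ F₀)]

/-- **D14.** the count for constant fields which embed into `ℂ`. -/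
theorem card_torsion_small_proof (k F₀ : Type*) [Field k] [IsAlgClosed k] [CharZero k] [Field F₀]
    [Algebra k F₀] [IsFF k F₀] (hk : Nonempty (k →+* ℂ)) (n : ℕ) (hn : 0 < n) :
    Nat.card (Pic0.torsion k F₀ n) = n ^ (2 * genusFF k F₀) := by
  obtain ⟨φ⟩ := hk
  letI : Algebra k ℂ := φ.toAlgebra
  exact card_torsion_small_aux k F₀ n hn

end Fermat.Agent.S27
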